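import Mathlib

/-!
# The bound of Alon and Boppana

The second eigenvalue of a `d`-regular graph on many points is at least `2 √(d - 1) - ε` (Nilli's
proof with two test functions far apart).
-/

set_option autoImplicit false

noncomputable section

namespace FA.AlonBoppana

open Finset Classical

variable {V : Type*} [Fintype V] (G : SimpleGraph V)

/-- The points within `i` steps of `A`. -/
def ballOf (A : Finset V) : ℕ → Finset V
  | 0 => A
  | i + 1 => ballOf A i ∪ (ballOf A i).biUnion fun v => G.neighborFinset v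

/-- The distance from `A`, cut off at `k + 1`. -/
def cutDist (A : Finset V) (k : ℕ) (v : V) : ℕ :=
  ((range (k + 1)).filter fun i => v ∉ ballOf G A i).card

/-- The test function of Nilli. -/
def nilli (A : Finset V) (k : ℕ) (c : ℝ) (v : V) : ℝ :=
  if cutDist G A k v ≤ k then c ^ cutDist G A k v else 0

variable {G}

lemma mem_ballOf_succ {A : Finset V} {i : ℕ} {v : V} :
    v ∈ ballOf G A (i + 1) ↔ v ∈ ballOf G A i ∨ ∃ u ∈ ballOf G A i, G.Adj u v := by
  simp [ballOf]

lemma ballOf_mono {A : Finset V} {i j : ℕ} (h : i ≤ j) : ballOf G A i ⊆ ballOf G A j := by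
  induction h with
  | refl => exact subset_rfl
  | step _ ih => exact ih.trans fun v hv => mem_ballOf_succ.2 (Or.inl hv)

lemma exists_mem_ballOf_add {A B : Finset V} (j : ℕ) :
    ∀ (i : ℕ) (u : V), u ∈ ballOf G B j → u ∈ ballOf G A i → ∃ b ∈ B, b ∈ ballOf G A (i + j) := by
  induction j with
  | zero => exact fun i u h1 h2 => ⟨u, h1, h2⟩
  | succ j ih =>
    intro i u h1 h2
    rcases mem_ballOf_succ.1 h1 with h | ⟨u', hu', hadj⟩
    · exact ih (i + 1) u h (ballOf_mono (Nat.le_succ i) h2) |>.imp fun b hb =>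
        ⟨hb.1, by rw [← Nat.add_assoc, Nat.add_right_comm]; exact hb.2⟩
    · exact ih (i + 1) u' hu' (mem_ballOf_succ.2 (Or.inr ⟨u, h2, hadj.symm⟩)) |>.imp fun b hb =>
        ⟨hb.1, by rw [← Nat.add_assoc, Nat.add_right_comm]; exact hb.2⟩

lemma cutDist_le_iff {A : Finset V} {k : ℕ} {v : V} {i : ℕ} (hi : i ≤ k) :
    cutDist G A k v ≤ i ↔ v ∈ ballOf G A i := by
  constructor
  · intro h
    by_contra hv
    have hsub : range (i + 1) ⊆ (range (k + 1)).filter fun j => v ∉ ballOf G A j := by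
      intro j hj
      have hj' := mem_range.1 hj
      exact mem_filter.2 ⟨mem_range.2 (by omega), fun hm => hv (ballOf_mono (by omega) hm)⟩
    have := card_le_card hsub
    rw [card_range] at this
    unfold cutDist at h
    omega
  · intro h
    refine le_trans (card_le_card ?_) (card_range i).le
    intro j hj
    obtain ⟨_, hj2⟩ := mem_filter.1 hj
    rw [mem_range]
    by_contra hle
    exact hj2 (ballOf_mono (Nat.le_of_not_lt hle) h)

lemma cutDist_le_succ (A : Finset V) (k : ℕ) (v : V) : cutDist G A k v ≤ k + 1 :=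
  (card_filter_le _ _).trans (card_range _).le

lemma cutDist_adj {A : Finset V} {k : ℕ} {u v : V} (h : G.Adj u v) :
    cutDist G A k v ≤ cutDist G A k u + 1 := by
  by_cases hu : cutDist G A k u < k
  · refine (cutDist_le_iff hu).2 (mem_ballOf_succ.2 (Or.inr ⟨u, ?_, h⟩))
    exact (cutDist_le_iff hu.le).1 le_rfl
  · have := cutDist_le_succ (G := G) A k v
    omega

lemma nilli_eq_zero {A : Finset V} {k : ℕ} {c : ℝ} {v : V} (h : v ∉ ballOf G A k) :
    nilli G A k c v = 0 := by
  rw [nilli, if_neg]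
  exact fun h1 => h ((cutDist_le_iff le_rfl).1 h1)

lemma sum_nilli_pos {A : Finset V} {k : ℕ} {c : ℝ} (hc : 0 ≤ c) (hA : A.Nonempty) :
    0 < ∑ v, nilli G A k c v := by
  obtain ⟨a, ha⟩ := hA
  have h0 : cutDist G A k a ≤ 0 := (cutDist_le_iff (Nat.zero_le k)).2 ha
  refine sum_pos' (fun v _ => ?_) ⟨a, mem_univ a, ?_⟩
  · unfold nilli
    split_ifs
    · exact pow_nonneg hc _
    · exact le_rfl
  · simp [nilli, Nat.le_zero.1 h0]

/-- The quadratic form of the adjacency operator. -/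
def adjForm (G : SimpleGraph V) (f : V → ℝ) : ℝ := ∑ v, ∑ w ∈ G.neighborFinset v, f v * f w

lemma adjForm_nilli {q k : ℕ} (hreg : ∀ v, (G.neighborFinset v).card = q + 1) (hq : 1 ≤ q)
    {A : Finset V} (hA : ∀ a ∈ A, ∃ b ∈ A, G.Adj a b) :
    (2 * Real.sqrt q - (2 * Real.sqrt q - 1) / ((k : ℝ) + 1)) *
        ∑ v, nilli G A k (Real.sqrt q)⁻¹ v ^ 2 ≤ adjForm G (nilli G A k (Real.sqrt q)⁻¹) := by
  set r := Real.sqrt q with hr
  set c := r⁻¹ with hc
  set ρ := cutDist G A k with hρ
  set f := nilli G A k c with hf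
  have hr1 : 1 ≤ r := by
    rw [hr, ← Real.sqrt_one]; exact Real.sqrt_le_sqrt (by exact_mod_cast hq)
  have hr0 : 0 < r := lt_of_lt_of_le one_pos hr1
  have hqr : (q : ℝ) = r * r := (Real.mul_self_sqrt (Nat.cast_nonneg q)).symm
  let up : V → Finset V := fun v => (G.neighborFinset v).filter fun w => ρ v < ρ w
  have hup : ∀ v, ρ v ≤ k → (up v).card ≤ q := by
    intro v hv
    have hdown : ∃ w ∈ G.neighborFinset v, ¬ρ v < ρ w := by
      rcases Nat.eq_zero_or_pos (ρ v) with h0 | h0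
      · obtain ⟨b, hb, hadj⟩ := hA v ((cutDist_le_iff (Nat.zero_le k)).1 h0.le)
        refine ⟨b, (G.mem_neighborFinset v b).2 hadj, ?_⟩
        have : ρ b ≤ 0 := (cutDist_le_iff (Nat.zero_le k)).2 hb
        omega
      · obtain ⟨i, hi⟩ : ∃ i, ρ v = i + 1 := ⟨ρ v - 1, by omega⟩
        rcases mem_ballOf_succ.1 ((cutDist_le_iff (hi ▸ hv)).1 hi.le) with h | ⟨u, hu, hadj⟩
        · have : ρ v ≤ i := (cutDist_le_iff (by omega)).2 h
          omega
        · refine ⟨u, (G.mem_neighborFinset v u).2 hadj.symm, ?_⟩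
          have : ρ u ≤ i := (cutDist_le_iff (by omega)).2 hu
          omega
    obtain ⟨w, hw, hnw⟩ := hdown
    have hlt : (up v).card < (G.neighborFinset v).card :=
      card_lt_card ⟨filter_subset _ _, fun hsub => hnw (mem_filter.1 (hsub hw)).2⟩
    rw [hreg v] at hlt
    omega
  let s : ℕ → ℕ := fun i => (univ.filter fun v => ρ v = i).card
  have hs : ∀ i, i < k → s (i + 1) ≤ q * s i := by
    intro i hi
    refine le_trans (card_le_card ?_) (le_trans card_biUnion_le
      (le_trans (sum_le_sum fun v (hv : v ∈ univ.filter fun v => ρ v = i) =>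
        hup v ((mem_filter.1 hv).2 ▸ hi.le)) (le_of_eq ?_)))
    · intro v hv
      have hv' := (mem_filter.1 hv).2
      rcases mem_ballOf_succ.1 ((cutDist_le_iff hi).1 hv'.le) with h | ⟨u, hu, hadj⟩
      · have : ρ v ≤ i := (cutDist_le_iff hi.le).2 h
        omega
      · have h1 : ρ u ≤ i := (cutDist_le_iff hi.le).2 hu
        have h2 : ρ v ≤ ρ u + 1 := cutDist_adj hadj
        exact mem_biUnion.2 ⟨u, mem_filter.2 ⟨mem_univ _, by omega⟩,
          mem_filter.2 ⟨(G.mem_neighborFinset u v).2 hadj, by omega⟩⟩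
    · rw [sum_const, smul_eq_mul, mul_comm]
  set a : ℕ → ℝ := fun i => (s i : ℝ) * (c ^ i) ^ 2 with ha
  have hanti : ∀ i, i < k → a (i + 1) ≤ a i := by
    intro i hi
    have h1 : ((s (i + 1) : ℕ) : ℝ) ≤ (q : ℝ) * s i := by exact_mod_cast hs i hi
    calc a (i + 1) ≤ ((q : ℝ) * s i) * (c ^ (i + 1)) ^ 2 :=
          mul_le_mul_of_nonneg_right h1 (sq_nonneg _)
      _ = a i * ((q : ℝ) * c ^ 2) := by simp only [ha]; ring
      _ = a i := by rw [hqr, hc]; field_simp
  have hlast : ∀ i, i ≤ k → a k ≤ a i := fun i hi =>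
    Nat.decreasingInduction (motive := fun j _ => a k ≤ a j)
      (fun j hj ih => ih.trans (hanti j hj)) le_rfl hi
  have hfv : ∀ v, ρ v ≤ k → f v = c ^ ρ v := fun v hv => by simp [hf, nilli, ← hρ, hv]
  have hf0 : ∀ v, ¬ρ v ≤ k → f v = 0 := fun v hv => by simp [hf, nilli, ← hρ, hv]
  have hfiber : ∀ i ≤ k, ∑ v ∈ univ.filter (fun v => ρ v = i), f v ^ 2 = a i := by
    intro i hi
    rw [sum_congr rfl fun v hv => by rw [hfv v ((mem_filter.1 hv).2 ▸ hi), (mem_filter.1 hv).2],
      sum_const, nsmul_eq_mul]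
  have hS : ((k : ℝ) + 1) * a k ≤ ∑ v, f v ^ 2 := by
    calc ((k : ℝ) + 1) * a k = ∑ i ∈ range (k + 1), a k := by simp
      _ ≤ ∑ i ∈ range (k + 1), ∑ v ∈ univ.filter (fun v => ρ v = i), f v ^ 2 := by
          refine sum_le_sum fun i hi => ?_
          have hi' : i ≤ k := Nat.lt_succ_iff.1 (mem_range.1 hi)
          rw [hfiber i hi']
          exact hlast i hi'
      _ = ∑ v ∈ univ.filter (fun v => ρ v ∈ range (k + 1)), f v ^ 2 := by
          rw [← sum_fiberwise_of_maps_to (s := univ.filter fun v => ρ v ∈ range (k + 1))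
            (t := range (k + 1)) (g := ρ) (fun v hv => (mem_filter.1 hv).2)]
          refine sum_congr rfl fun i hi => sum_congr ?_ fun _ _ => rfl
          ext v
          simp only [mem_filter, mem_univ, true_and]
          exact ⟨fun h => ⟨h ▸ hi, h⟩, fun h => h.2⟩
      _ ≤ _ := sum_le_sum_of_subset_of_nonneg (filter_subset _ _) fun v _ _ => sq_nonneg _
  have hswap : ∀ φ : V → V → ℝ, ∑ v, ∑ w ∈ G.neighborFinset v, φ v w =
      ∑ v, ∑ w ∈ G.neighborFinset v, φ w v := by
    intro φ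
    simp only [SimpleGraph.neighborFinset_eq_filter, sum_filter]
    rw [sum_comm]
    simp only [G.adj_comm]
  have hD : ∑ v, ∑ w ∈ G.neighborFinset v, (f v - f w) ^ 2 =
      2 * ∑ v, ∑ w ∈ up v, (f v - f w) ^ 2 := by
    have hsplit : ∀ v w, (f v - f w) ^ 2 = (if ρ v < ρ w then (f v - f w) ^ 2 else 0) +
        if ρ w < ρ v then (f w - f v) ^ 2 else 0 := by
      intro v w
      rcases lt_trichotomy (ρ v) (ρ w) with h | h | h
      · simp [h, not_lt.2 h.le]
      · have : f v = f w := by simp [hf, nilli, ← hρ, h]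
        simp [this]
      · simp [h, not_lt.2 h.le, sub_sq_comm]
    simp only [up, sum_filter]
    rw [sum_congr rfl fun v _ => sum_congr rfl fun w _ => hsplit v w]
    simp only [sum_add_distrib]
    rw [← hswap (fun v w => if ρ v < ρ w then (f v - f w) ^ 2 else 0), two_mul]
  have hexp : ∑ v, ∑ w ∈ G.neighborFinset v, (f v - f w) ^ 2 =
      2 * ((q : ℝ) + 1) * ∑ v, f v ^ 2 - 2 * adjForm G f := by
    have h1 : ∀ v, ∑ _w ∈ G.neighborFinset v, f v ^ 2 = ((q : ℝ) + 1) * f v ^ 2 := by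
      intro v; rw [sum_const, nsmul_eq_mul, hreg v]; push_cast; rfl
    have h2 : ∑ v, ∑ w ∈ G.neighborFinset v, f w ^ 2 = ((q : ℝ) + 1) * ∑ v, f v ^ 2 := by
      rw [hswap fun _ w => f w ^ 2, mul_sum]; exact sum_congr rfl fun v _ => h1 v
    simp only [sub_sq, sum_add_distrib, sum_sub_distrib, mul_assoc, ← mul_sum, h1, h2, adjForm]
    ring
  have hbound : ∀ v, ∑ w ∈ up v, (f v - f w) ^ 2 ≤ (q : ℝ) * (1 - c) ^ 2 * f v ^ 2 +
      if ρ v = k then (q : ℝ) * (1 - (1 - c) ^ 2) * f v ^ 2 else 0 := by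
    intro v
    by_cases hv : ρ v ≤ k
    swap
    · have hempty : up v = ∅ := by
        refine filter_eq_empty_iff.2 fun w _ => ?_
        have : ρ w ≤ k + 1 := cutDist_le_succ A k w
        omega
      rw [hempty, sum_empty, hf0 v hv]
      split_ifs <;> simp
    have hw : ∀ w ∈ up v, (f v - f w) ^ 2 = if ρ v = k then f v ^ 2 else (1 - c) ^ 2 * f v ^ 2 := by
      intro w hw
      obtain ⟨hwN, hlt⟩ := mem_filter.1 hw
      have hle : ρ w ≤ ρ v + 1 := cutDist_adj ((G.mem_neighborFinset v w).1 hwN)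
      split_ifs with hk
      · rw [hf0 w (by omega), sub_zero]
      · rw [hfv v hv, hfv w (by omega), show ρ w = ρ v + 1 by omega, pow_succ]
        ring
    have hcard : ((up v).card : ℝ) ≤ q := by exact_mod_cast hup v hv
    rw [sum_congr rfl hw, sum_const, nsmul_eq_mul]
    split_ifs with hk
    · calc ((up v).card : ℝ) * f v ^ 2 ≤ (q : ℝ) * f v ^ 2 :=
            mul_le_mul_of_nonneg_right hcard (sq_nonneg _)
        _ = _ := by ring
    · calc ((up v).card : ℝ) * ((1 - c) ^ 2 * f v ^ 2) ≤ (q : ℝ) * ((1 - c) ^ 2 * f v ^ 2) :=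
            mul_le_mul_of_nonneg_right hcard (by positivity)
        _ = _ := by ring
  have hup2 : ∑ v, ∑ w ∈ up v, (f v - f w) ^ 2 ≤
      (r - 1) ^ 2 * ∑ v, f v ^ 2 + (2 * r - 1) * a k := by
    refine (sum_le_sum fun v _ => hbound v).trans (le_of_eq ?_)
    rw [sum_add_distrib, ← mul_sum, ← sum_filter, ← mul_sum, hfiber k le_rfl, hqr, hc]
    have e1 : r * r * (1 - r⁻¹) ^ 2 = (r - 1) ^ 2 := by field_simp
    have e2 : r * r * (1 - (1 - r⁻¹) ^ 2) = 2 * r - 1 := by field_simp; ring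
    rw [e1, e2]
  have hak : (2 * r - 1) * a k ≤ (2 * r - 1) / ((k : ℝ) + 1) * ∑ v, f v ^ 2 := by
    rw [div_mul_eq_mul_div, le_div_iff₀ (by positivity), mul_assoc]
    exact mul_le_mul_of_nonneg_left (by linarith) (by linarith)
  have hqS : (q : ℝ) * ∑ v, f v ^ 2 = r * r * ∑ v, f v ^ 2 := by rw [hqr]
  nlinarith [hD, hexp, hup2, hak, hqS]

/-- Two far test functions give a test function orthogonal to the constants. -/
lemma exists_test {q k : ℕ} (hreg : ∀ v, (G.neighborFinset v).card = q + 1) (hq : 1 ≤ q)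
    (hcard : 2 * (q + 2) ^ (2 * k + 2) < Fintype.card V) :
    ∃ g : V → ℝ, g ≠ 0 ∧ ∑ v, g v = 0 ∧
      (2 * Real.sqrt q - (2 * Real.sqrt q - 1) / ((k : ℝ) + 1)) * ∑ v, g v ^ 2 ≤ adjForm G g := by
  have hnb : ∀ v, ∃ w, G.Adj v w := fun v => by
    obtain ⟨w, hw⟩ := card_pos.1 (by rw [hreg v]; omega : 0 < (G.neighborFinset v).card)
    exact ⟨w, (G.mem_neighborFinset v w).1 hw⟩
  have hV : Nonempty V := Fintype.card_pos_iff.1 (lt_of_le_of_lt (Nat.zero_le _) hcard)
  obtain ⟨a⟩ := hV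
  obtain ⟨b, hab⟩ := hnb a
  set A : Finset V := {a, b} with hAdef
  have hball : ∀ i, (ballOf G A i).card ≤ 2 * (q + 2) ^ i := by
    intro i
    induction i with
    | zero => simpa [ballOf, hAdef] using Finset.card_le_two
    | succ i ih =>
      calc (ballOf G A (i + 1)).card ≤ (ballOf G A i).card +
            ((ballOf G A i).biUnion fun v => G.neighborFinset v).card := card_union_le _ _
        _ ≤ (ballOf G A i).card + (ballOf G A i).card * (q + 1) := by
            refine Nat.add_le_add_left (card_biUnion_le_card_mul _ _ _ fun v _ => (hreg v).le) _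
        _ = (ballOf G A i).card * (q + 2) := by ring
        _ ≤ 2 * (q + 2) ^ i * (q + 2) := Nat.mul_le_mul_right _ ih
        _ = _ := by ring
  obtain ⟨w, -, hw⟩ := exists_mem_notMem_of_card_lt_card
    (s := ballOf G A (2 * k + 2)) (t := univ) (by
      rw [card_univ]; exact lt_of_le_of_lt (hball _) hcard)
  obtain ⟨x, hwx⟩ := hnb w
  set B : Finset V := {w, x} with hBdef
  have hsep : ∀ u, u ∈ ballOf G A (k + 1) → u ∉ ballOf G B k := by
    intro u h1 h2
    obtain ⟨z, hz, hzA⟩ := exists_mem_ballOf_add k (k + 1) u h2 h1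
    have hzA' : z ∈ ballOf G A (2 * k + 1) := ballOf_mono (by omega) hzA
    rw [hBdef, mem_insert, mem_singleton] at hz
    rcases hz with rfl | rfl
    · exact hw (ballOf_mono (by omega) hzA')
    · exact hw (mem_ballOf_succ.2 (Or.inr ⟨_, hzA', hwx.symm⟩))
  have hpairA : ∀ y ∈ A, ∃ z ∈ A, G.Adj y z := by
    intro y hy
    rw [hAdef, mem_insert, mem_singleton] at hy
    rcases hy with rfl | rfl
    · exact ⟨b, by simp [hAdef], hab⟩
    · exact ⟨a, by simp [hAdef], hab.symm⟩
  have hpairB : ∀ y ∈ B, ∃ z ∈ B, G.Adj y z := by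
    intro y hy
    rw [hBdef, mem_insert, mem_singleton] at hy
    rcases hy with rfl | rfl
    · exact ⟨x, by simp [hBdef], hwx⟩
    · exact ⟨w, by simp [hBdef], hwx.symm⟩
  have hr1 : 1 ≤ Real.sqrt q := by
    rw [← Real.sqrt_one]; exact Real.sqrt_le_sqrt (by exact_mod_cast hq)
  have hc0 : (0 : ℝ) ≤ (Real.sqrt q)⁻¹ := by positivity
  set f := nilli G A k (Real.sqrt q)⁻¹ with hf
  set h := nilli G B k (Real.sqrt q)⁻¹ with hh
  set σ := ∑ v, f v with hσ
  set τ := ∑ v, h v with hτ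
  have hσ0 : 0 < σ := sum_nilli_pos hc0 ⟨a, by simp [hAdef]⟩
  have hτ0 : 0 < τ := sum_nilli_pos hc0 ⟨w, by simp [hBdef]⟩
  have hdisj : ∀ u v, (u = v ∨ G.Adj u v) → f u * h v = 0 := by
    intro u v huv
    by_cases hu : u ∈ ballOf G A k
    · have hv : v ∈ ballOf G A (k + 1) := by
        rcases huv with rfl | huv
        · exact mem_ballOf_succ.2 (Or.inl hu)
        · exact mem_ballOf_succ.2 (Or.inr ⟨u, hu, huv⟩)
      rw [hh, nilli_eq_zero (hsep v hv), mul_zero]
    · rw [hf, nilli_eq_zero hu, zero_mul]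
  set g : V → ℝ := fun v => τ * f v - σ * h v with hg
  have hsq : ∀ v, g v ^ 2 = τ ^ 2 * f v ^ 2 + σ ^ 2 * h v ^ 2 := by
    intro v
    have := hdisj v v (Or.inl rfl)
    simp only [hg]
    linear_combination (-2 * τ * σ) * this
  refine ⟨g, ?_, ?_, ?_⟩
  · intro h0
    have h1 : ∑ v, g v ^ 2 = 0 := by simp [h0]
    simp only [hsq, sum_add_distrib, ← mul_sum] at h1
    have hf2 : 0 < ∑ v, f v ^ 2 := by
      refine (sum_nonneg fun v _ => sq_nonneg (f v)).lt_of_ne' fun he => hσ0.ne' ?_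
      exact sum_eq_zero fun v _ => sq_eq_zero_iff.1
        ((sum_eq_zero_iff_of_nonneg fun u _ => sq_nonneg (f u)).1 he v (mem_univ v))
    have h2 : 0 ≤ σ ^ 2 * ∑ v, h v ^ 2 := mul_nonneg (sq_nonneg _) (sum_nonneg fun v _ => sq_nonneg _)
    have h3 : 0 < τ ^ 2 * ∑ v, f v ^ 2 := mul_pos (pow_pos hτ0 2) hf2
    linarith
  · simp only [hg, sum_sub_distrib, ← mul_sum, ← hσ, ← hτ]
    ring
  · have hform : adjForm G g = τ ^ 2 * adjForm G f + σ ^ 2 * adjForm G h := by
      simp only [adjForm, mul_sum, ← sum_add_distrib]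
      refine sum_congr rfl fun u _ => sum_congr rfl fun v hv => ?_
      have h1 := (G.mem_neighborFinset u v).1 hv
      have e1 := hdisj u v (Or.inr h1)
      have e2 := hdisj v u (Or.inr h1.symm)
      simp only [hg]
      linear_combination (-τ * σ) * e1 + (-τ * σ) * e2
    simp only [hsq, sum_add_distrib, ← mul_sum, hform, mul_add]
    refine add_le_add ?_ ?_
    · rw [mul_left_comm]
      exact mul_le_mul_of_nonneg_left (adjForm_nilli hreg hq hpairA) (sq_nonneg _)
    · rw [mul_left_comm]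
      exact mul_le_mul_of_nonneg_left (adjForm_nilli hreg hq hpairB) (sq_nonneg _)

/-- A test function yields an eigenvector orthogonal to the constants. -/
lemma exists_eigenvector {d : ℕ} (hreg : ∀ v, (G.neighborFinset v).card = d) {θ : ℝ} (hθ : θ ≤ d)
    (g : V → ℝ) (hg : g ≠ 0) (hsum : ∑ v, g v = 0) (hform : θ * ∑ v, g v ^ 2 ≤ adjForm G g) :
    ∃ (μ : ℝ) (u : V → ℝ), θ ≤ μ ∧ u ≠ 0 ∧ ∑ v, u v = 0 ∧
      ∀ v, ∑ w ∈ G.neighborFinset v, u w = μ * u v := by
  have hH : (G.adjMatrix ℝ).IsHermitian := by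
    rw [Matrix.isHermitian_iff_isSymm]; exact G.isSymm_adjMatrix
  set b := hH.eigenvectorBasis with hb
  set μ := hH.eigenvalues with hμ
  set u : V → V → ℝ := fun i v => b i v with hu
  have hev : ∀ i v, ∑ w ∈ G.neighborFinset v, u i w = μ i * u i v := by
    intro i v
    have h1 := congrFun (hH.mulVec_eigenvectorBasis i) v
    simp [SimpleGraph.adjMatrix_mulVec_apply] at h1
    exact h1
  have hu0 : ∀ i, u i ≠ 0 := by
    intro i h0
    refine b.orthonormal.ne_zero i ?_
    ext v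
    exact congrFun h0 v
  have hswap : ∀ φ : V → V → ℝ, ∑ v, ∑ w ∈ G.neighborFinset v, φ v w =
      ∑ v, ∑ w ∈ G.neighborFinset v, φ w v := by
    intro φ
    simp only [SimpleGraph.neighborFinset_eq_filter, sum_filter]
    rw [sum_comm]
    simp only [G.adj_comm]
  have hsum0 : ∀ i, μ i ≠ d → ∑ v, u i v = 0 := by
    intro i hi
    have h1 : ∑ v, ∑ w ∈ G.neighborFinset v, u i w = μ i * ∑ v, u i v := by
      rw [mul_sum]; exact sum_congr rfl fun v _ => hev i v
    rw [hswap fun _ w => u i w] at h1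
    simp only [sum_const, hreg, nsmul_eq_mul, ← mul_sum] at h1
    have h2 : ((d : ℝ) - μ i) * ∑ v, u i v = 0 := by linear_combination h1
    exact (mul_eq_zero.1 h2).resolve_left (sub_ne_zero.2 (Ne.symm hi))
  by_contra hcon
  push Not at hcon
  have hd : ∀ i, θ ≤ μ i → μ i = d := by
    intro i hi
    by_contra hne
    obtain ⟨v, hv⟩ := hcon (μ i) (u i) hi (hu0 i) (hsum0 i hne)
    exact hv (hev i v)
  set c : V → ℝ := fun i => ∑ v, u i v * g v with hc
  have hrepr : ∀ v, ∑ i, c i * u i v = g v := by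
    intro v
    have hcoef : ∀ i, b.repr (WithLp.toLp 2 g) i = c i := by
      intro i
      rw [OrthonormalBasis.repr_apply_apply, PiLp.inner_apply]
      simp [hc, hu, mul_comm]
    have h1 := congrArg (fun z : EuclideanSpace ℝ V => z v) (b.sum_repr (WithLp.toLp 2 g))
    simp [hcoef] at h1
    exact h1
  have hnorm : ∀ T : V → ℝ, ∑ v, g v * ∑ i, T i * u i v = ∑ i, T i * c i := by
    intro T
    simp only [mul_sum, hc]
    rw [sum_comm]
    exact sum_congr rfl fun i _ => sum_congr rfl fun v _ => by ring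
  have hS : ∑ v, g v ^ 2 = ∑ i, c i * c i := by
    rw [← hnorm c]; exact sum_congr rfl fun v _ => by rw [hrepr, sq]
  have hF : adjForm G g = ∑ i, μ i * c i * c i := by
    rw [← hnorm fun i => μ i * c i]
    refine sum_congr rfl fun v _ => ?_
    rw [← mul_sum]
    congr 1
    calc ∑ w ∈ G.neighborFinset v, g w = ∑ w ∈ G.neighborFinset v, ∑ i, c i * u i w :=
          sum_congr rfl fun w _ => (hrepr w).symm
      _ = ∑ i, c i * ∑ w ∈ G.neighborFinset v, u i w := by
          rw [sum_comm]; simp only [mul_sum]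
      _ = _ := sum_congr rfl fun i _ => by rw [hev]; ring
  -- the part of `g` with eigenvalue at least `θ` vanishes
  set T : V → ℝ := fun i => if θ ≤ μ i then c i else 0 with hT
  set z : V → ℝ := fun v => ∑ i, T i * u i v with hz
  have hz0 : z = 0 := by
    by_contra hne
    have hzsum : ∑ v, z v = 0 := by
      have h1 : ∑ v, z v = ∑ v, g v - ∑ v, ∑ i, (if θ ≤ μ i then 0 else c i) * u i v := by
        rw [← sum_sub_distrib]
        refine sum_congr rfl fun v _ => ?_
        rw [← hrepr v, ← sum_sub_distrib]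
        exact sum_congr rfl fun i _ => by simp only [hT]; split_ifs <;> ring
      rw [h1, hsum, sum_comm, zero_sub, neg_eq_zero]
      refine sum_eq_zero fun i _ => ?_
      rw [← mul_sum]
      split_ifs with h
      · simp
      · rw [hsum0 i (fun he => h (he ▸ hθ)), mul_zero]
    obtain ⟨v, hv⟩ := hcon d z hθ hne hzsum
    apply hv
    simp only [hz]
    rw [sum_comm, mul_sum]
    refine sum_congr rfl fun i _ => ?_
    rw [← mul_sum, hev]
    simp only [hT]
    split_ifs with h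
    · rw [hd i h]; ring
    · ring
  have hTc : ∑ i, T i * c i = 0 := by 
    rw [← hnorm T]
    refine sum_eq_zero fun v _ => ?_
    rw [show ∑ i, T i * u i v = z v from rfl, hz0, Pi.zero_apply, mul_zero]
  have hle : ∀ i, μ i * c i * c i ≤ θ * (c i * c i) := by
    intro i
    by_cases h : θ ≤ μ i
    · have h1 := (sum_eq_zero_iff_of_nonneg fun j _ => by
        simp only [hT]; split_ifs <;> simp [mul_self_nonneg]).1 hTc i (mem_univ i)
      simp only [hT, if_pos h] at h1
      simp [mul_assoc, h1]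
    · rw [mul_assoc]
      exact mul_le_mul_of_nonneg_right (le_of_not_ge h) (mul_self_nonneg _)
  -- some coefficient with small eigenvalue is nonzero
  have hlt : adjForm G g < θ * ∑ v, g v ^ 2 := by
    rw [hF, hS, mul_sum]
    refine sum_lt_sum (fun i _ => hle i) ?_
    by_contra hall
    push Not at hall
    apply hg
    funext v
    rw [← hrepr v, Pi.zero_apply]
    refine sum_eq_zero fun i _ => ?_
    have h1 := hall i (mem_univ i)
    by_cases h : θ ≤ μ i
    · have h2 := (sum_eq_zero_iff_of_nonneg fun j _ => by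
        simp only [hT]; split_ifs <;> simp [mul_self_nonneg]).1 hTc i (mem_univ i)
      simp only [hT, if_pos h] at h2
      rw [mul_self_eq_zero.1 h2, zero_mul]
    · have h2 : (θ - μ i) * (c i * c i) ≤ 0 := by linarith
      have h3 : c i * c i = 0 := le_antisymm
        (nonpos_of_mul_nonpos_right h2 (sub_pos.2 (not_le.1 h))) (mul_self_nonneg _) 
      rw [mul_self_eq_zero.1 h3, zero_mul]
  linarith

/-- The theorem of Alon and Boppana. -/
theorem alon_boppana_aux.{v} (d : ℕ) (hd : 2 ≤ d) (ε : ℝ) (hε : 0 < ε) :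
    ∃ N : ℕ, ∀ (W : Type v) [Fintype W] (H : SimpleGraph W),
      (∀ v, (H.neighborFinset v).card = d) → N ≤ Fintype.card W →
      ∃ (μ : ℝ) (u : W → ℝ), 2 * Real.sqrt (d - 1 : ℕ) - ε ≤ μ ∧ u ≠ 0 ∧ ∑ v, u v = 0 ∧
        ∀ v, ∑ w ∈ H.neighborFinset v, u w = μ * u v := by
  obtain ⟨q, rfl⟩ : ∃ q, d = q + 1 := ⟨d - 1, by omega⟩
  rw [Nat.add_sub_cancel]
  obtain ⟨k, hk⟩ := exists_nat_gt ((2 * Real.sqrt q) / ε)
  refine ⟨2 * (q + 2) ^ (2 * k + 2) + 1, fun W _ H hreg hcard => ?_⟩
  have hq : 1 ≤ q := by omega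
  obtain ⟨g, h1, h2, h3⟩ := exists_test hreg hq (by omega : 2 * (q + 2) ^ (2 * k + 2) < Fintype.card W)
  have hr0 : 0 ≤ Real.sqrt q := Real.sqrt_nonneg _
  have hε' : (2 * Real.sqrt q - 1) / ((k : ℝ) + 1) ≤ ε := by
    rw [div_le_iff₀ (by positivity)]
    rw [div_lt_iff₀ hε] at hk
    nlinarith
  obtain ⟨μ, u, hμ, hu⟩ := exists_eigenvector hreg (θ := 2 * Real.sqrt q - ε) (by
      have hqr := Real.mul_self_sqrt (Nat.cast_nonneg q : (0 : ℝ) ≤ q)
      push_cast
      nlinarith [sq_nonneg (Real.sqrt q - 1)]) g h1 h2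
    (le_trans (mul_le_mul_of_nonneg_right (by linarith) (sum_nonneg fun v _ => sq_nonneg _)) h3)
  exact ⟨μ, u, hμ, hu⟩

end FA.AlonBoppana
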