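import Mathlib

/-!
# Huang's theorem on the cube and the sensitivity conjecture

A set of more than half of the points of the `n`-cube spans a point of degree at least `√n` (Huang;
Knuth's form of the proof), so by Gotsman and Linial the degree of a Boolean function is at most
the square of its sensitivity.
-/

set_option autoImplicit false

noncomputable section

namespace FA.Sensitivity

open Finset Classical

variable {n : ℕ}

/-- The point `v` with coordinate `i` negated. -/
def flipAt (v : Fin n → Bool) (i : Fin n) : Fin n → Bool := Function.update v i (!v i)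

lemma flipAt_flipAt (v : Fin n → Bool) (i : Fin n) : flipAt (flipAt v i) i = v := by
  simp [flipAt]

lemma flipAt_comm (v : Fin n → Bool) {i j : Fin n} (h : i ≠ j) :
    flipAt (flipAt v i) j = flipAt (flipAt v j) i := by
  simp [flipAt, Function.update_of_ne h, Function.update_of_ne h.symm, Function.update_comm h]

/-- A sign attached to a coordinate of a point. -/
def coordSign (b : Bool) : ℝ := if b then -1 else 1

/-- The sign of the edge from `v` in direction `i`. -/
def edgeSign (v : Fin n → Bool) (i : Fin n) : ℝ := ∏ j ∈ Iio i, coordSign (v j)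

/-- The sign of a point. -/
def pointSign (v : Fin n → Bool) : ℝ := ∏ j, coordSign (v j)

lemma coordSign_sq (b : Bool) : coordSign b * coordSign b = 1 := by
  cases b <;> simp [coordSign]

lemma coordSign_not (b : Bool) : coordSign (!b) = -coordSign b := by
  cases b <;> simp [coordSign]

lemma prod_coordSign_flip (v : Fin n → Bool) (i : Fin n) (s : Finset (Fin n)) :
    ∏ j ∈ s, coordSign (flipAt v i j) =
      (if i ∈ s then -1 else 1) * ∏ j ∈ s, coordSign (v j) := by
  split_ifs with h
  · rw [← mul_prod_erase s _ h, ← mul_prod_erase s (fun j => coordSign (v j)) h]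
    rw [prod_congr rfl (fun j hj => show coordSign (flipAt v i j) = coordSign (v j) by
      rw [flipAt, Function.update_of_ne (mem_erase.1 hj).1])]
    simp [flipAt, coordSign_not]
  · rw [one_mul]
    refine prod_congr rfl fun j hj => ?_
    have hne : j ≠ i := fun he => h (he ▸ hj)
    simp [flipAt, Function.update_of_ne hne]

lemma edgeSign_flip (v : Fin n → Bool) (i j : Fin n) :
    edgeSign (flipAt v i) j = (if i < j then -1 else 1) * edgeSign v j := by
  rw [edgeSign, prod_coordSign_flip]
  simp [edgeSign]

lemma pointSign_flip (v : Fin n → Bool) (i : Fin n) : pointSign (flipAt v i) = -pointSign v := by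
  rw [pointSign, prod_coordSign_flip]
  simp [pointSign]

lemma abs_edgeSign (v : Fin n → Bool) (i : Fin n) : |edgeSign v i| = 1 := by
  rw [edgeSign, abs_prod]
  refine prod_eq_one fun j _ => ?_
  cases v j <;> simp [coordSign]

lemma edgeSign_sq (v : Fin n → Bool) (i : Fin n) : edgeSign v i * edgeSign v i = 1 := by
  rw [edgeSign, ← prod_mul_distrib]
  exact prod_eq_one fun j _ => coordSign_sq _

lemma pointSign_sq (v : Fin n → Bool) : pointSign v * pointSign v = 1 := by
  rw [pointSign, ← prod_mul_distrib]
  exact prod_eq_one fun j _ => coordSign_sq _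

/-- The signed adjacency operator of the cube. -/
def cubeOp (n : ℕ) : ((Fin n → Bool) → ℝ) →ₗ[ℝ] ((Fin n → Bool) → ℝ) where
  toFun f v := ∑ i, edgeSign v i * f (flipAt v i)
  map_add' f g := by funext v; simp [mul_add, sum_add_distrib]
  map_smul' c f := by funext v; simp [mul_sum, mul_left_comm]

/-- Multiplication by the sign of the point. -/
def signOp (n : ℕ) : ((Fin n → Bool) → ℝ) ≃ₗ[ℝ] ((Fin n → Bool) → ℝ) where
  toFun f v := pointSign v * f v
  map_add' f g := by funext v; simp [mul_add]
  map_smul' c f := by funext v; simp [mul_left_comm]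
  invFun f v := pointSign v * f v
  left_inv f := by funext v; simp [← mul_assoc, pointSign_sq]
  right_inv f := by funext v; simp [← mul_assoc, pointSign_sq]

lemma cubeOp_cubeOp (f : (Fin n → Bool) → ℝ) : cubeOp n (cubeOp n f) = (n : ℝ) • f := by
  funext v
  simp only [cubeOp, LinearMap.coe_mk, AddHom.coe_mk, mul_sum, Pi.smul_apply, smul_eq_mul]
  set T : Fin n → Fin n → ℝ := fun i j =>
    edgeSign v i * (edgeSign (flipAt v i) j * f (flipAt (flipAt v i) j)) with hT
  change ∑ i, ∑ j, T i j = (n : ℝ) * f v
  have hdiag : ∀ i, T i i = f v := by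
    intro i
    simp [hT, flipAt_flipAt, edgeSign_flip, ← mul_assoc, edgeSign_sq]
  have hanti : ∀ i j, i ≠ j → T i j + T j i = 0 := by
    intro i j hij
    simp only [hT, edgeSign_flip, flipAt_comm v hij]
    rcases lt_or_gt_of_ne hij with h | h
    · rw [if_pos h, if_neg (not_lt.2 h.le)]; ring
    · rw [if_neg (not_lt.2 h.le), if_pos h]; ring
  have h2 : 2 * ∑ i, ∑ j, T i j = ∑ i : Fin n, ∑ j : Fin n, if i = j then 2 * f v else 0 := by
    rw [two_mul]
    conv_lhs =>
      arg 2
      rw [show ∑ i, ∑ j, T i j = ∑ i, ∑ j, T j i from sum_comm]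
    rw [← sum_add_distrib]
    refine sum_congr rfl fun i _ => ?_
    rw [← sum_add_distrib]
    refine sum_congr rfl fun j _ => ?_
    by_cases hij : i = j
    · subst hij; rw [if_pos rfl, hdiag]; ring
    · rw [if_neg hij, hanti i j hij]
  simp at h2
  linarith

lemma cubeOp_signOp (f : (Fin n → Bool) → ℝ) : cubeOp n (signOp n f) = -signOp n (cubeOp n f) := by
  funext v
  simp only [cubeOp, signOp, LinearMap.coe_mk, AddHom.coe_mk, LinearEquiv.coe_mk, Pi.neg_apply,
    pointSign_flip, mul_sum, ← sum_neg_distrib]
  exact sum_congr rfl fun i _ => by ring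

/-- The operator has an eigenspace for `√n` filling half of the space. -/
lemma exists_eigenspace (hn : 0 < n) :
    ∃ E : Submodule ℝ ((Fin n → Bool) → ℝ), 2 ^ (n - 1) ≤ Module.finrank ℝ E ∧
      ∀ f ∈ E, cubeOp n f = Real.sqrt n • f := by
  set r := Real.sqrt n with hr
  have hr0 : 0 < r := Real.sqrt_pos.2 (by exact_mod_cast hn)
  have hrr : r * r = n := Real.mul_self_sqrt (by positivity)
  let P := cubeOp n + r • LinearMap.id
  let Q := cubeOp n - r • LinearMap.id
  refine ⟨LinearMap.range P, ?_, ?_⟩
  · have hsup : LinearMap.range P ⊔ LinearMap.range Q = ⊤ := by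
      rw [eq_top_iff]
      intro f _
      have h1 : f = P ((2 * r)⁻¹ • f) + Q (-((2 * r)⁻¹ • f)) := by
        funext v
        simp only [P, Q, LinearMap.add_apply, LinearMap.sub_apply, LinearMap.smul_apply,
          LinearMap.id_apply, map_smul, map_neg, Pi.add_apply, Pi.smul_apply, Pi.neg_apply,
          Pi.sub_apply, smul_eq_mul]
        field_simp
        ring
      rw [h1]
      exact Submodule.add_mem_sup (LinearMap.mem_range_self _ _) (LinearMap.mem_range_self _ _)
    have hQP : LinearMap.range Q = Submodule.map (signOp n).toLinearMap (LinearMap.range P) := by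
      have h2 : ∀ f, Q (signOp n f) = -signOp n (P f) := by
        intro f
        simp only [P, Q, LinearMap.add_apply, LinearMap.sub_apply, LinearMap.smul_apply,
          LinearMap.id_apply, map_add, map_smul, cubeOp_signOp]
        abel
      ext g
      simp only [LinearMap.mem_range, Submodule.mem_map, LinearEquiv.coe_coe]
      constructor
      · rintro ⟨f, rfl⟩
        refine ⟨P (-(signOp n).symm f), ⟨_, rfl⟩, ?_⟩
        have h3 := h2 (-(signOp n).symm f)
        rw [map_neg, LinearEquiv.apply_symm_apply, map_neg] at h3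
        rw [neg_inj] at h3
        exact h3.symm
      · rintro ⟨y, ⟨f, rfl⟩, rfl⟩
        exact ⟨-signOp n f, by rw [map_neg, h2, neg_neg]⟩
    have h3 : Module.finrank ℝ (LinearMap.range Q) = Module.finrank ℝ (LinearMap.range P) := by
      rw [hQP]; exact LinearEquiv.finrank_map_eq _ _
    have h4 := Submodule.finrank_add_le_finrank_add_finrank (LinearMap.range P) (LinearMap.range Q)
    rw [hsup, finrank_top, Module.finrank_fintype_fun_eq_card, h3] at h4
    simp at h4
    obtain ⟨m, rfl⟩ : ∃ m, n = m + 1 := ⟨n - 1, by omega⟩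
    rw [Nat.add_sub_cancel]
    rw [pow_succ] at h4
    omega
  · rintro g ⟨f, rfl⟩
    simp only [P, LinearMap.add_apply, LinearMap.smul_apply, LinearMap.id_apply, map_add, map_smul,
      cubeOp_cubeOp, smul_add, smul_smul, hrr]
    abel

/-- Huang's theorem. -/
theorem huang (H : Finset (Fin n → Bool)) (hH : 2 ^ (n - 1) < H.card) :
    ∃ v ∈ H, n ≤ (univ.filter fun i => flipAt v i ∈ H).card ^ 2 := by
  rcases Nat.eq_zero_or_pos n with rfl | hn
  · obtain ⟨v, hv⟩ := card_pos.1 (lt_of_le_of_lt (Nat.zero_le _) hH)
    exact ⟨v, hv, Nat.zero_le _⟩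
  obtain ⟨E, hE, hEe⟩ := exists_eigenspace hn
  let R : E →ₗ[ℝ] (((Hᶜ : Finset (Fin n → Bool)) : Type) → ℝ) :=
    (LinearMap.funLeft ℝ ℝ Subtype.val).comp E.subtype
  have hlt : Module.finrank ℝ (((Hᶜ : Finset (Fin n → Bool)) : Type) → ℝ) <
      Module.finrank ℝ E := by
    rw [Module.finrank_fintype_fun_eq_card, Fintype.card_coe, card_compl, Fintype.card_fun,
      Fintype.card_bool, Fintype.card_fin]
    obtain ⟨m, rfl⟩ : ∃ m, n = m + 1 := ⟨n - 1, by omega⟩
    rw [Nat.add_sub_cancel] at hE hH
    have : 2 ^ (m + 1) = 2 * 2 ^ m := by ring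
    have := Nat.one_le_two_pow (n := m)
    omega
  obtain ⟨x, hx, hx0⟩ :=
    Submodule.exists_mem_ne_zero_of_ne_bot (LinearMap.ker_ne_bot_of_finrank_lt (f := R) hlt)
  rw [LinearMap.mem_ker] at hx
  set g : (Fin n → Bool) → ℝ := (x : (Fin n → Bool) → ℝ) with hg
  have hout : ∀ w, w ∉ H → g w = 0 := fun w hw => congrFun hx ⟨w, mem_compl.2 hw⟩
  obtain ⟨v, -, hv⟩ := exists_max_image univ (fun w => |g w|) univ_nonempty
  have hpos : 0 < |g v| := by
    by_contra hle
    refine hx0 (Subtype.ext (funext fun w => abs_nonpos_iff.1 ?_))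
    exact (hv w (mem_univ w)).trans (le_of_not_gt hle)
  have hvH : v ∈ H := by
    by_contra hvn
    rw [hout v hvn, abs_zero] at hpos
    exact lt_irrefl _ hpos
  refine ⟨v, hvH, ?_⟩
  have h1 : Real.sqrt n * |g v| ≤ ((univ.filter fun i => flipAt v i ∈ H).card : ℝ) * |g v| := by
    have h2 : ∑ i, edgeSign v i * g (flipAt v i) = Real.sqrt n * g v :=
      congrFun (hEe g x.2) v
    calc Real.sqrt n * |g v| = |∑ i, edgeSign v i * g (flipAt v i)| := by
          rw [h2, abs_mul, abs_of_nonneg (Real.sqrt_nonneg _)]
      _ ≤ ∑ i, |edgeSign v i * g (flipAt v i)| := abs_sum_le_sum_abs _ _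
      _ ≤ ∑ i, if flipAt v i ∈ H then |g v| else 0 := by
          refine sum_le_sum fun i _ => ?_
          rw [abs_mul, abs_edgeSign, one_mul]
          split_ifs with h
          · exact hv _ (mem_univ _)
          · simp [hout _ h]
      _ = _ := by rw [← sum_filter, sum_const, nsmul_eq_mul]
  have h3 := le_of_mul_le_mul_right h1 hpos
  have h4 : (n : ℝ) ≤ ((univ.filter fun i => flipAt v i ∈ H).card : ℝ) ^ 2 := by
    rw [← Real.sq_sqrt (Nat.cast_nonneg n)]
    gcongr
  exact_mod_cast h4

/-- The coefficient of the monomial `S` in the multilinear polynomial of `f`. -/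
def moebiusCoeff (f : (Fin n → Bool) → Bool) (S : Finset (Fin n)) : ℤ :=
  ∑ T ∈ S.powerset, (-1) ^ (S.card - T.card) * if f (fun i => decide (i ∈ T)) then 1 else 0

lemma moebiusCoeff_sum (f : (Fin n → Bool) → Bool) (U : Finset (Fin n)) :
    ∑ S ∈ U.powerset, moebiusCoeff f S = if f (fun i => decide (i ∈ U)) then 1 else 0 := by
  unfold moebiusCoeff
  set F : Finset (Fin n) → ℤ := fun T => if f (fun i => decide (i ∈ T)) then 1 else 0
  change ∑ S ∈ U.powerset, ∑ T ∈ S.powerset, (-1 : ℤ) ^ (S.card - T.card) * F T = F U
  rw [sum_comm' (s' := fun T => (U \ T).powerset.image fun D => T ∪ D) (t' := U.powerset)]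
  · have h1 : ∀ T ∈ U.powerset,
        ∑ S ∈ (U \ T).powerset.image (fun D => T ∪ D), (-1 : ℤ) ^ (S.card - T.card) * F T =
          if U \ T = ∅ then F T else 0 := by
      intro T _
      have hd : ∀ D ∈ (U \ T).powerset, Disjoint T D := fun D hD =>
        disjoint_of_subset_right (mem_powerset.1 hD) disjoint_sdiff
      rw [sum_image]
      · rw [sum_congr rfl fun D hD => by
          rw [card_union_of_disjoint (hd D hD), Nat.add_sub_cancel_left], ← sum_mul,
          Finset.sum_powerset_neg_one_pow_card]
        split_ifs <;> simp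
      · intro D hD D' hD' he
        have := congrArg (· \ T) he
        simpa [union_sdiff_left, sdiff_eq_self_of_disjoint (hd D hD).symm,
          sdiff_eq_self_of_disjoint (hd D' hD').symm] using this
    rw [sum_congr rfl h1, Finset.sum_eq_single U]
    · simp
    · intro T hT hne
      rw [if_neg]
      intro he
      exact hne (subset_antisymm (mem_powerset.1 hT) (sdiff_eq_empty_iff_subset.1 he))
    · simp
  · intro S T
    simp only [mem_powerset, mem_image]
    constructor
    · rintro ⟨hS, hT⟩
      exact ⟨⟨S \ T, sdiff_subset_sdiff hS subset_rfl, union_sdiff_of_subset hT⟩, hT.trans hS⟩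
    · rintro ⟨⟨D, hD, rfl⟩, hT⟩
      exact ⟨union_subset hT (hD.trans sdiff_subset), subset_union_left⟩

/-- The sensitivity theorem. -/
theorem sensitivity_aux (f : (Fin n → Bool) → Bool) (S : Finset (Fin n))
    (hS : moebiusCoeff f S ≠ 0) :
    ∃ v, S.card ≤ (univ.filter fun i => f (flipAt v i) ≠ f v).card ^ 2 := by
  rcases Nat.eq_zero_or_pos S.card with h0 | h0
  · exact ⟨fun _ => false, h0 ▸ Nat.zero_le _⟩
  set k := S.card with hk
  let e : Fin k → Fin n := fun j => (S.orderIsoOfFin hk.symm j).1
  have he : Function.Injective e := fun a b h => (S.orderIsoOfFin hk.symm).injective (Subtype.ext h)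
  let ι : (Fin k → Bool) → (Fin n → Bool) := fun w => Function.extend e w fun _ => false
  have hιflip : ∀ w j, ι (flipAt w j) = flipAt (ι w) (e j) := by
    intro w j
    funext i
    by_cases hi : ∃ a, e a = i
    · obtain ⟨a, rfl⟩ := hi
      simp only [ι, he.extend_apply]
      by_cases ha : a = j
      · subst ha; simp [flipAt, he.extend_apply]
      · simp [flipAt, Function.update_of_ne ha, Function.update_of_ne (he.ne ha), he.extend_apply]
    · have hne : i ≠ e j := fun h => hi ⟨j, h.symm⟩
      simp [ι, flipAt, Function.extend_apply' _ _ _ hi, Function.update_of_ne hne]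
  let g : (Fin k → Bool) → Bool := fun w =>
    xor (f (ι w)) (decide (Odd (univ.filter fun j => w j = true).card))
  have hodd : ∀ w j, decide (Odd (univ.filter fun a => flipAt w j a = true).card) =
      !decide (Odd (univ.filter fun a : Fin k => w a = true).card) := by
    intro w j
    have h1 := pointSign_flip w j
    have h2 : ∀ u : Fin k → Bool, pointSign u =
        (-1 : ℝ) ^ (univ.filter fun a => u a = true).card := by
      intro u; simp [pointSign, coordSign, prod_ite]
    rw [h2, h2] at h1
    rcases Nat.even_or_odd (univ.filter fun a : Fin k => w a = true).card with hw | hw <;>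
      rcases Nat.even_or_odd (univ.filter fun a : Fin k => flipAt w j a = true).card with hv | hv
    · rw [hw.neg_one_pow, hv.neg_one_pow] at h1; norm_num at h1
    · simp [hv, Nat.not_odd_iff_even.2 hw]
    · simp [hw, Nat.not_odd_iff_even.2 hv]
    · rw [hw.neg_one_pow, hv.neg_one_pow] at h1; norm_num at h1
  have hsens : ∀ w j, g (flipAt w j) = g w → f (flipAt (ι w) (e j)) ≠ f (ι w) := by
    intro w j hg
    simp only [g, hodd w j, hιflip] at hg
    revert hg
    cases f (flipAt (ι w) (e j)) <;> cases f (ι w) <;>
      cases decide (Odd (univ.filter fun a : Fin k => w a = true).card) <;> simp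
  have hne : (univ.filter fun w => g w = true).card ≠ 2 ^ (k - 1) := by
    intro heq
    apply hS
    have hbij : moebiusCoeff f S = ∑ w : Fin k → Bool,
        (-1 : ℤ) ^ (k - (univ.filter fun j => w j = true).card) *
          if f (ι w) then 1 else 0 := by
      rw [moebiusCoeff]
      refine Finset.sum_bij' (fun T _ => fun j => decide (e j ∈ T))
        (fun w _ => (univ.filter fun j => w j = true).image e) (fun T _ => mem_univ _)
        (fun w _ => ?_) (fun T hT => ?_) (fun w _ => ?_) (fun T hT => ?_)
      · rw [mem_powerset]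
        intro i hi
        obtain ⟨j, _, rfl⟩ := mem_image.1 hi
        exact (S.orderIsoOfFin hk.symm j).2
      · ext i
        simp only [mem_image, mem_filter, mem_univ, true_and, decide_eq_true_eq]
        refine ⟨?_, fun hi => ?_⟩
        · rintro ⟨j, hj, rfl⟩; exact hj
        · obtain ⟨j, hj⟩ := (S.orderIsoOfFin hk.symm).surjective ⟨i, mem_powerset.1 hT hi⟩
          have : e j = i := congrArg Subtype.val hj
          exact ⟨j, this ▸ hi, this⟩
      · funext j
        simp [he.eq_iff]
      · have hTimg : T = (univ.filter fun j => e j ∈ T).image e := by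
          ext i
          simp only [mem_image, mem_filter, mem_univ, true_and]
          refine ⟨fun hi => ?_, ?_⟩
          · obtain ⟨j, hj⟩ := (S.orderIsoOfFin hk.symm).surjective ⟨i, mem_powerset.1 hT hi⟩
            have : e j = i := congrArg Subtype.val hj
            exact ⟨j, this ▸ hi, this⟩
          · rintro ⟨j, hj, rfl⟩; exact hj
        have hcard : T.card = (univ.filter fun j => decide (e j ∈ T) = true).card := by
          conv_lhs => rw [hTimg, card_image_of_injective _ he]
          simp
        have hι : ι (fun j => decide (e j ∈ T)) = fun i => decide (i ∈ T) := by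
          funext i
          by_cases hi : ∃ a, e a = i
          · obtain ⟨a, rfl⟩ := hi; simp [ι, he.extend_apply]
          · have : i ∉ T := by
              intro hiT
              obtain ⟨j, hj⟩ := (S.orderIsoOfFin hk.symm).surjective ⟨i, mem_powerset.1 hT hiT⟩
              exact hi ⟨j, congrArg Subtype.val hj⟩
            simp [ι, Function.extend_apply' _ _ _ hi, this]
        rw [← hcard, hι]
    have hcount : ((univ.filter fun w => g w = true).card : ℤ) = ∑ w : Fin k → Bool,
        ((if Odd (univ.filter fun j => w j = true).card then 1 else 0) +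
          (-1 : ℤ) ^ (univ.filter fun j => w j = true).card * if f (ι w) then 1 else 0) := by
      rw [← sum_boole]
      refine sum_congr rfl fun w _ => ?_
      simp only [g]
      rcases Nat.even_or_odd (univ.filter fun j => w j = true).card with hw | hw
      · rw [hw.neg_one_pow, if_neg (Nat.not_odd_iff_even.2 hw)]
        rcases Bool.eq_false_or_eq_true (f (ι w)) with hf | hf <;>
          simp [hf, Nat.not_odd_iff_even.2 hw]
      · rw [hw.neg_one_pow, if_pos hw]
        rcases Bool.eq_false_or_eq_true (f (ι w)) with hf | hf <;> simp [hf, hw]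
    have hhalf : (∑ w : Fin k → Bool,
        (if Odd (univ.filter fun j => w j = true).card then (1 : ℤ) else 0)) = 2 ^ (k - 1) := by
      let j0 : Fin k := ⟨0, h0⟩
      let φ : (Fin k → Bool) ≃ (Fin k → Bool) :=
        Function.Involutive.toPerm (fun w => flipAt w j0) fun w => flipAt_flipAt w j0
      have h1 := Equiv.sum_comp φ fun w : Fin k → Bool =>
        if Odd (univ.filter fun j => w j = true).card then (1 : ℤ) else 0
      have h2 : ∀ w : Fin k → Bool,
          (if Odd (univ.filter fun j => φ w j = true).card then (1 : ℤ) else 0) +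
            (if Odd (univ.filter fun j => w j = true).card then (1 : ℤ) else 0) = 1 := by
        intro w
        have h3 := hodd w j0
        rw [show φ w = flipAt w j0 from rfl]
        by_cases hw : Odd (univ.filter fun j => w j = true).card <;>
          simp [hw] at h3 <;> simp [hw, h3]
      have h4 := sum_congr rfl (fun w (_ : w ∈ (univ : Finset (Fin k → Bool))) => h2 w)
      rw [sum_add_distrib, h1, sum_const, card_univ, Fintype.card_fun, Fintype.card_bool,
        Fintype.card_fin, nsmul_eq_mul, mul_one] at h4
      obtain ⟨m, hm⟩ : ∃ m, k = m + 1 := ⟨k - 1, by omega⟩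
      have h5 : ((2 ^ k : ℕ) : ℤ) = 2 * 2 ^ (k - 1) := by
        rw [hm, Nat.add_sub_cancel]; push_cast; ring
      linarith
    rw [sum_add_distrib, hhalf, heq] at hcount
    push_cast at hcount
    have hsgn : ∀ w : Fin k → Bool, (-1 : ℤ) ^ (k - (univ.filter fun j => w j = true).card) =
        (-1) ^ k * (-1) ^ (univ.filter fun j => w j = true).card := by
      intro w
      have hle : (univ.filter fun j => w j = true).card ≤ k := by
        simpa using card_le_univ (univ.filter fun j => w j = true)
      have h6 : (-1 : ℤ) ^ k = (-1) ^ (k - (univ.filter fun j => w j = true).card) *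
          (-1) ^ (univ.filter fun j => w j = true).card := by
        rw [← pow_add, Nat.sub_add_cancel hle]
      rw [h6, mul_assoc, ← mul_pow]
      simp
    rw [hbij]
    simp only [hsgn, mul_assoc, ← mul_sum]
    rw [show (∑ w : Fin k → Bool, (-1 : ℤ) ^ (univ.filter fun j => w j = true).card *
      if f (ι w) then 1 else 0) = 0 by linarith, mul_zero]
  obtain ⟨b, hb⟩ : ∃ b, 2 ^ (k - 1) < (univ.filter fun w => g w = b).card := by
    rcases lt_or_gt_of_ne hne with h | h
    · refine ⟨false, ?_⟩
      have h1 := card_filter_add_card_filter_not (s := (univ : Finset (Fin k → Bool)))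
        (p := fun w => g w = true)
      simp only [Bool.not_eq_true, card_univ, Fintype.card_fun, Fintype.card_bool,
        Fintype.card_fin] at h1
      obtain ⟨m, hm⟩ : ∃ m, k = m + 1 := ⟨k - 1, by omega⟩
      have : 2 ^ k = 2 * 2 ^ (k - 1) := by rw [hm, Nat.add_sub_cancel]; ring
      omega
    · exact ⟨true, h⟩
  obtain ⟨w, hw, hdeg⟩ := huang _ hb
  refine ⟨ι w, hdeg.trans (Nat.pow_le_pow_left ?_ 2)⟩
  rw [← card_image_of_injective _ he]
  refine card_le_card fun i hi => ?_
  obtain ⟨j, hj, rfl⟩ := mem_image.1 hi
  simp only [mem_filter, mem_univ, true_and] at hj hw ⊢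
  exact hsens w j (hj.trans hw.symm)

end FA.Sensitivity
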