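import Fermat.Agent.SpectralGraph.AlonBoppana

/-!
# Cheeger's inequality for regular graphs and the expander mixing lemma

Eigenvalues orthogonal to the constants and edge boundaries control each other (Dodziuk; Alon and
Milman), and govern the number of edges between any two sets.
-/

set_option autoImplicit false

noncomputable section

namespace FA.GraphCheeger

open Finset Classical
open FA.AlonBoppana (adjForm)

variable {V : Type*} [Fintype V] (G : SimpleGraph V)

/-- The pairs `(u, v)` of adjacent points with `u ∈ S` and `v ∈ T`. -/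
def pairsBetween (S T : Finset V) : Finset (V × V) := (S ×ˢ T).filter fun p => G.Adj p.1 p.2

/-- The bilinear form of the adjacency operator. -/
def adjBilin (f g : V → ℝ) : ℝ := ∑ v, ∑ w ∈ G.neighborFinset v, f v * g w

variable {G}

lemma nbr_swap (φ : V → V → ℝ) :
    ∑ v, ∑ w ∈ G.neighborFinset v, φ v w = ∑ v, ∑ w ∈ G.neighborFinset v, φ w v := by
  simp only [SimpleGraph.neighborFinset_eq_filter, sum_filter]
  rw [sum_comm]
  simp only [G.adj_comm]

/-- The quadratic form lies between bounds on the eigenvalues orthogonal to the constants. -/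
lemma form_bounds {d : ℕ} (hreg : ∀ v, (G.neighborFinset v).card = d) {α β : ℝ}
    (hev : ∀ (μ : ℝ) (u : V → ℝ), u ≠ 0 → ∑ v, u v = 0 →
      (∀ v, ∑ w ∈ G.neighborFinset v, u w = μ * u v) → α ≤ μ ∧ μ ≤ β)
    (g : V → ℝ) (hsum : ∑ v, g v = 0) :
    α * ∑ v, g v ^ 2 ≤ adjForm G g ∧ adjForm G g ≤ β * ∑ v, g v ^ 2 := by
  have hH : (G.adjMatrix ℝ).IsHermitian := by
    rw [Matrix.isHermitian_iff_isSymm]; exact G.isSymm_adjMatrix
  set b := hH.eigenvectorBasis with hb
  set μ := hH.eigenvalues with hμ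
  set u : V → V → ℝ := fun i v => b i v with hu
  have hev' : ∀ i v, ∑ w ∈ G.neighborFinset v, u i w = μ i * u i v := by
    intro i v
    have h1 := congrFun (hH.mulVec_eigenvectorBasis i) v
    simp [SimpleGraph.adjMatrix_mulVec_apply] at h1
    exact h1
  have hu0 : ∀ i, u i ≠ 0 := by
    intro i h0
    refine b.orthonormal.ne_zero i ?_
    ext v
    exact congrFun h0 v
  have hsum0 : ∀ i, μ i ≠ d → ∑ v, u i v = 0 := by
    intro i hi
    have h1 : ∑ v, ∑ w ∈ G.neighborFinset v, u i w = μ i * ∑ v, u i v := by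
      rw [mul_sum]; exact sum_congr rfl fun v _ => hev' i v
    rw [nbr_swap fun _ w => u i w] at h1
    simp only [sum_const, hreg, nsmul_eq_mul, ← mul_sum] at h1
    have h2 : ((d : ℝ) - μ i) * ∑ v, u i v = 0 := by linear_combination h1
    exact (mul_eq_zero.1 h2).resolve_left (sub_ne_zero.2 (Ne.symm hi))
  set c : V → ℝ := fun i => ∑ v, u i v * g v with hc
  have hrepr : ∀ v, ∑ i, c i * u i v = g v := by
    intro v
    have hcoef : ∀ i, b.repr (WithLp.toLp 2 g) i = c i := by
      intro i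
      rw [OrthonormalBasis.repr_apply_apply, PiLp.inner_apply]
      simp [hc, hu, mul_comm]
    have h1 := congrArg (fun z : EuclideanSpace ℝ V => z v) (b.sum_repr (WithLp.toLp 2 g))
    simp [hcoef] at h1
    exact h1
  have hnorm : ∀ T : V → ℝ, ∑ v, g v * ∑ i, T i * u i v = ∑ i, T i * c i := by
    intro T
    simp only [mul_sum, hc]
    rw [sum_comm]
    exact sum_congr rfl fun i _ => sum_congr rfl fun v _ => by ring
  have hS : ∑ v, g v ^ 2 = ∑ i, c i * c i := by
    rw [← hnorm c]; exact sum_congr rfl fun v _ => by rw [hrepr, sq]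
  have hF : adjForm G g = ∑ i, μ i * (c i * c i) := by
    rw [sum_congr rfl fun i _ => (mul_assoc (μ i) (c i) (c i)).symm, ← hnorm fun i => μ i * c i]
    refine sum_congr rfl fun v _ => ?_
    rw [← mul_sum]
    congr 1
    calc ∑ w ∈ G.neighborFinset v, g w = ∑ w ∈ G.neighborFinset v, ∑ i, c i * u i w :=
          sum_congr rfl fun w _ => (hrepr w).symm
      _ = ∑ i, c i * ∑ w ∈ G.neighborFinset v, u i w := by rw [sum_comm]; simp only [mul_sum]
      _ = _ := sum_congr rfl fun i _ => by rw [hev']; ring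
  -- the part of `g` in the eigenspace of `d`
  set T : V → ℝ := fun i => if μ i = d then c i else 0 with hT
  set z : V → ℝ := fun v => ∑ i, T i * u i v with hz
  have hzsum : ∑ v, z v = 0 := by
    have h1 : ∑ v, z v = ∑ v, g v - ∑ v, ∑ i, (if μ i = d then 0 else c i) * u i v := by
      rw [← sum_sub_distrib]
      refine sum_congr rfl fun v _ => ?_
      rw [← hrepr v, ← sum_sub_distrib]
      exact sum_congr rfl fun i _ => by simp only [hT]; split_ifs <;> ring
    rw [h1, hsum, sum_comm, zero_sub, neg_eq_zero]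
    refine sum_eq_zero fun i _ => ?_
    rw [← mul_sum]
    split_ifs with h
    · simp
    · rw [hsum0 i h, mul_zero]
  have hterm : ∀ i, α * (c i * c i) ≤ μ i * (c i * c i) ∧ μ i * (c i * c i) ≤ β * (c i * c i) := by
    intro i
    by_cases hd : μ i = d
    swap
    · obtain ⟨h1, h2⟩ := hev (μ i) (u i) (hu0 i) (hsum0 i hd) (hev' i)
      exact ⟨mul_le_mul_of_nonneg_right h1 (mul_self_nonneg _),
        mul_le_mul_of_nonneg_right h2 (mul_self_nonneg _)⟩
    by_cases hz0 : z = 0
    · have hTc : ∑ j, T j * c j = 0 := by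
        rw [← hnorm T]
        refine sum_eq_zero fun v _ => ?_
        rw [show ∑ j, T j * u j v = z v from rfl, hz0, Pi.zero_apply, mul_zero]
      have h1 := (sum_eq_zero_iff_of_nonneg fun j _ => by
        simp only [hT]; split_ifs <;> simp [mul_self_nonneg]).1 hTc i (mem_univ i)
      simp only [hT, if_pos hd] at h1
      simp [h1]
    · obtain ⟨h1, h2⟩ := hev d z hz0 hzsum fun v => by
        simp only [hz]
        rw [sum_comm, mul_sum]
        refine sum_congr rfl fun j _ => ?_
        rw [← mul_sum, hev']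
        simp only [hT]
        split_ifs with h
        · rw [h]; ring
        · ring
      rw [hd]
      exact ⟨mul_le_mul_of_nonneg_right h1 (mul_self_nonneg _),
        mul_le_mul_of_nonneg_right h2 (mul_self_nonneg _)⟩
  rw [hF, hS, mul_sum, mul_sum]
  exact ⟨sum_le_sum fun i _ => (hterm i).1, sum_le_sum fun i _ => (hterm i).2⟩

lemma pairs_eq (S T : Finset V) : ((pairsBetween G S T).card : ℝ) =
    adjBilin G (fun v => if v ∈ S then 1 else 0) (fun v => if v ∈ T then 1 else 0) := by
  have h : ∀ v, ∑ w ∈ G.neighborFinset v, (if v ∈ S then (1 : ℝ) else 0) * (if w ∈ T then 1 else 0) =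
      if v ∈ S then ∑ w ∈ T, (if G.Adj v w then (1 : ℝ) else 0) else 0 := by
    intro v
    split_ifs with hv
    · simp only [one_mul, sum_boole]
      congr 2
      ext w
      simp [and_comm]
    · simp
  rw [adjBilin, sum_congr rfl fun v _ => h v, sum_ite_mem, univ_inter, ← sum_product', sum_boole]
  rfl

lemma dirichlet_eq {d : ℕ} (hreg : ∀ v, (G.neighborFinset v).card = d) (f : V → ℝ) :
    ∑ v, ∑ w ∈ G.neighborFinset v, (f v - f w) ^ 2 = 2 * ((d : ℝ) * ∑ v, f v ^ 2 - adjForm G f) := by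
  have h1 : ∀ v, ∑ _w ∈ G.neighborFinset v, f v ^ 2 = (d : ℝ) * f v ^ 2 := by
    intro v; rw [sum_const, nsmul_eq_mul, hreg v]
  have h2 : ∑ v, ∑ w ∈ G.neighborFinset v, f w ^ 2 = (d : ℝ) * ∑ v, f v ^ 2 := by
    rw [nbr_swap fun _ w => f w ^ 2, mul_sum]; exact sum_congr rfl fun v _ => h1 v
  simp only [sub_sq, sum_add_distrib, sum_sub_distrib, mul_assoc, ← mul_sum, h1, h2, adjForm]
  ring

lemma boundary_eq (S : Finset V) :
    ∑ v, ∑ w ∈ G.neighborFinset v, |(if v ∈ S then (1 : ℝ) else 0) - if w ∈ S then 1 else 0| =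
      2 * (pairsBetween G S Sᶜ).card := by
  have h : ∀ v w, |(if v ∈ S then (1 : ℝ) else 0) - if w ∈ S then 1 else 0| =
      (if v ∈ S then (1 : ℝ) else 0) * (if w ∈ Sᶜ then 1 else 0) +
        (if w ∈ S then 1 else 0) * (if v ∈ Sᶜ then 1 else 0) := by
    intro v w
    by_cases hv : v ∈ S <;> by_cases hw : w ∈ S <;> simp [hv, hw]
  simp only [h, sum_add_distrib]
  rw [nbr_swap fun v w => (if w ∈ S then (1 : ℝ) else 0) * (if v ∈ Sᶜ then 1 else 0), two_mul,
    pairs_eq]
  rfl

/-- The easy half of Cheeger's inequality. -/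
theorem cheeger_easy {d : ℕ} (hreg : ∀ v, (G.neighborFinset v).card = d) {β : ℝ}
    (hev : ∀ (μ : ℝ) (u : V → ℝ), u ≠ 0 → ∑ v, u v = 0 →
      (∀ v, ∑ w ∈ G.neighborFinset v, u w = μ * u v) → μ ≤ β) (S : Finset V) :
    ((d : ℝ) - β) * (S.card * (Fintype.card V - S.card) : ℝ) ≤
      Fintype.card V * (pairsBetween G S Sᶜ).card := by
  rcases isEmpty_or_nonempty V with hV | hV
  · simp [Subsingleton.elim S ∅, Fintype.card_eq_zero]
  set n : ℝ := (Fintype.card V : ℝ) with hn
  have hn0 : 0 < n := by rw [hn]; exact_mod_cast Fintype.card_pos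
  set f : V → ℝ := fun v => n * (if v ∈ S then 1 else 0) - S.card with hf
  have hsum : ∑ v, f v = 0 := by
    simp only [hf, sum_sub_distrib, ← mul_sum, sum_boole, filter_mem_eq_inter, univ_inter,
      sum_const, card_univ, nsmul_eq_mul, hn]
    ring
  have hsq : ∑ v, f v ^ 2 = n * (S.card * (n - S.card)) := by
    have : ∀ v, f v ^ 2 = (n ^ 2 - 2 * n * S.card) * (if v ∈ S then 1 else 0) + (S.card : ℝ) ^ 2 := by
      intro v; simp only [hf]; split_ifs <;> ring
    simp only [this, sum_add_distrib, ← mul_sum, sum_boole, filter_mem_eq_inter, univ_inter,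
      sum_const, card_univ, nsmul_eq_mul, ← hn]
    ring
  obtain ⟨-, h2⟩ := form_bounds hreg (α := min β (-(d : ℝ))) (β := β) (fun μ u h0 h1 h => by
    refine ⟨?_, hev μ u h0 h1 h⟩
    obtain ⟨v, -, hv⟩ := exists_max_image univ (fun w => |u w|) univ_nonempty
    have hpos : 0 < |u v| := by
      by_contra hle
      exact h0 (funext fun w => abs_nonpos_iff.1 ((hv w (mem_univ w)).trans (le_of_not_gt hle)))
    have h3 : |μ| * |u v| ≤ (d : ℝ) * |u v| := by
      rw [← abs_mul, ← h v]
      refine (abs_sum_le_sum_abs _ _).trans ((sum_le_sum fun w _ => hv w (mem_univ w)).trans ?_)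
      rw [sum_const, nsmul_eq_mul, hreg v]
    exact (min_le_right _ _).trans (abs_le.1 (le_of_mul_le_mul_right h3 hpos)).1) f hsum
  have hdir := dirichlet_eq hreg f
  have hpt : ∀ v w, (f v - f w) ^ 2 =
      n ^ 2 * |(if v ∈ S then (1 : ℝ) else 0) - if w ∈ S then 1 else 0| := by
    intro v w; simp only [hf]; split_ifs <;> norm_num; ring
  simp only [hpt, ← mul_sum] at hdir
  rw [boundary_eq, hsq] at hdir
  rw [hsq] at h2
  refine le_of_mul_le_mul_left ?_ hn0
  nlinarith

/-- The coarea inequality. -/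
lemma coarea {h : ℝ} (hh : ∀ S : Finset V, 2 * S.card ≤ Fintype.card V →
      h * S.card ≤ (pairsBetween G S Sᶜ).card) :
    ∀ (k : ℕ) (w : V → ℝ), (∀ v, 0 ≤ w v) → (univ.filter fun v => w v ≠ 0).card = k →
      2 * k ≤ Fintype.card V →
      2 * h * ∑ v, w v ≤ ∑ v, ∑ u ∈ G.neighborFinset v, |w v - w u| := by
  intro k
  induction k using Nat.strong_induction_on with
  | _ k ih =>
    intro w hw hk hcard
    set s := univ.filter fun v => w v ≠ 0 with hs
    rcases s.eq_empty_or_nonempty with he | hne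
    · have h0 : ∀ v, w v = 0 := fun v => by
        by_contra hv
        exact notMem_empty v (he ▸ mem_filter.2 ⟨mem_univ v, hv⟩)
      simp [h0]
    obtain ⟨v0, hv0, hmin⟩ := exists_min_image s w hne
    set m := w v0 with hm
    have hm0 : 0 < m := lt_of_le_of_ne (hw v0) (Ne.symm (mem_filter.1 hv0).2)
    set i : V → ℝ := fun v => if v ∈ s then 1 else 0 with hi
    set w' : V → ℝ := fun v => w v - m * i v with hw'
    have hout : ∀ v, v ∉ s → w v = 0 := fun v hv => by
      by_contra hv'; exact hv (mem_filter.2 ⟨mem_univ v, hv'⟩)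
    have hw'0 : ∀ v, 0 ≤ w' v := by
      intro v
      simp only [hw', hi]
      split_ifs with hv
      · have := hmin v hv; linarith
      · simpa using hw v
    have hlt : (univ.filter fun v => w' v ≠ 0).card < k := by
      rw [← hk]
      refine card_lt_card ⟨fun v hv => ?_, fun hsub => ?_⟩
      · by_contra hv'
        refine (mem_filter.1 hv).2 ?_
        simp [hw', hi, hv', hout v hv']
      · exact (mem_filter.1 (hsub hv0)).2 (by simp [hw', hi, hv0, hm])
    have hI := ih _ hlt w' hw'0 rfl (by omega)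
    have hsplit : ∀ v u, |w v - w u| = |w' v - w' u| + m * |i v - i u| := by
      intro v u
      by_cases hv : v ∈ s <;> by_cases hu : u ∈ s
      · simp [hw', hi, hv, hu]
      · have := hmin v hv
        simp only [hw', hi, if_pos hv, if_neg hu, hout u hu, mul_one, mul_zero, sub_zero, abs_one,
          abs_of_nonneg (hw v), abs_of_nonneg (by linarith : 0 ≤ w v - m)]
        ring
      · have := hmin u hu
        simp only [hw', hi, if_neg hv, if_pos hu, hout v hv, mul_one, mul_zero, sub_zero, zero_sub,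
          abs_neg, abs_one, abs_of_nonneg (hw u), abs_of_nonneg (by linarith : 0 ≤ w u - m)]
        ring
      · simp [hw', hi, hv, hu]
    simp only [hsplit, sum_add_distrib, ← mul_sum]
    rw [show ∑ v, ∑ u ∈ G.neighborFinset v, |i v - i u| = 2 * (pairsBetween G s sᶜ).card from
      boundary_eq s]
    have hsum : ∑ v, w' v = ∑ v, w v - m * s.card := by
      simp only [hw', hi, sum_sub_distrib, ← mul_sum, sum_boole, filter_mem_eq_inter, univ_inter]
    rw [hsum] at hI
    have := mul_le_mul_of_nonneg_left (hh s (by omega)) hm0.le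
    nlinarith

lemma dirichlet_of_support {d : ℕ} (hd : 0 < d) (hreg : ∀ v, (G.neighborFinset v).card = d)
    {h : ℝ} (h0 : 0 ≤ h) (hh : ∀ S : Finset V, 2 * S.card ≤ Fintype.card V →
      h * S.card ≤ (pairsBetween G S Sᶜ).card)
    (g : V → ℝ) (hsupp : 2 * (univ.filter fun v => g v ^ 2 ≠ 0).card ≤ Fintype.card V) :
    h ^ 2 / d * ∑ v, g v ^ 2 ≤ ∑ v, ∑ w ∈ G.neighborFinset v, (g v - g w) ^ 2 := by
  set X := ∑ v, g v ^ 2 with hX
  set Q := ∑ v, ∑ w ∈ G.neighborFinset v, (g v - g w) ^ 2 with hQ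
  have hX0 : 0 ≤ X := sum_nonneg fun v _ => sq_nonneg _
  have hQ0 : 0 ≤ Q := sum_nonneg fun v _ => sum_nonneg fun w _ => sq_nonneg _
  rcases hX0.eq_or_lt with hXe | hXpos
  · rw [← hXe, mul_zero]; exact hQ0
  have h1 := coarea hh _ (fun v => g v ^ 2) (fun v => sq_nonneg _) rfl hsupp
  have h3 : (∑ v, ∑ w ∈ G.neighborFinset v, |g v ^ 2 - g w ^ 2|) ^ 2 ≤
      Q * ∑ v, ∑ w ∈ G.neighborFinset v, (g v + g w) ^ 2 := by
    simp only [hQ, sum_sigma']
    have := sum_mul_sq_le_sq_mul_sq (univ.sigma fun v => G.neighborFinset v)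
      (fun x => |g x.1 - g x.2|) fun x => |g x.1 + g x.2|
    have e : ∀ x y : ℝ, |x - y| * |x + y| = |x ^ 2 - y ^ 2| := fun x y => by
      rw [← abs_mul]; congr 1; ring
    simp only [e, sq_abs] at this
    exact this
  have h4 : ∑ v, ∑ w ∈ G.neighborFinset v, (g v + g w) ^ 2 ≤ 4 * d * X := by
    have e1 : ∑ v, ∑ _w ∈ G.neighborFinset v, g v ^ 2 = (d : ℝ) * X := by
      rw [hX, mul_sum]; simp only [sum_const, hreg, nsmul_eq_mul]
    have e2 : ∑ v, ∑ w ∈ G.neighborFinset v, g w ^ 2 = (d : ℝ) * X := by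
      rw [nbr_swap fun _ w => g w ^ 2]; exact e1
    refine (sum_le_sum fun v _ => sum_le_sum fun w _ => add_sq_le).trans ?_
    simp only [← mul_sum, sum_add_distrib, e1, e2]
    linarith
  have h5 : (2 * h * X) ^ 2 ≤ Q * (4 * d * X) :=
    le_trans (pow_le_pow_left₀ (by positivity) h1 2) (h3.trans (mul_le_mul_of_nonneg_left h4 hQ0))
  rw [div_mul_eq_mul_div, div_le_iff₀ (by exact_mod_cast hd)]
  refine le_of_mul_le_mul_left ?_ (by positivity : 0 < 4 * X)
  linarith

/-- The hard half of Cheeger's inequality. -/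
theorem cheeger_hard {d : ℕ} (hd : 0 < d) (hreg : ∀ v, (G.neighborFinset v).card = d)
    {h : ℝ} (h0 : 0 ≤ h) (hh : ∀ S : Finset V, 2 * S.card ≤ Fintype.card V →
      h * S.card ≤ (pairsBetween G S Sᶜ).card)
    (μ : ℝ) (u : V → ℝ) (hu : u ≠ 0) (hsum : ∑ v, u v = 0)
    (hev : ∀ v, ∑ w ∈ G.neighborFinset v, u w = μ * u v) : μ ≤ d - h ^ 2 / (2 * d) := by
  have hne : Nonempty V := by
    by_contra hcon
    rw [not_nonempty_iff] at hcon
    exact hu (Subsingleton.elim _ _)
  -- a median of `u`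
  set R := univ.filter fun v => 2 * (univ.filter fun w => u v < u w).card ≤ Fintype.card V with hR
  have hRne : R.Nonempty := by
    obtain ⟨v, -, hv⟩ := exists_max_image univ u univ_nonempty
    refine ⟨v, mem_filter.2 ⟨mem_univ v, ?_⟩⟩
    rw [show (univ.filter fun w => u v < u w) = ∅ from
      filter_eq_empty_iff.2 fun w _ => not_lt.2 (hv w (mem_univ w))]
    simp
  obtain ⟨a, ha, hamin⟩ := exists_min_image R u hRne
  set m := u a with hm
  have hlow : 2 * (univ.filter fun w => u w < m).card ≤ Fintype.card V := by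
    rcases (univ.filter fun w => u w < m).eq_empty_or_nonempty with he | hne'
    · simp [he]
    obtain ⟨b, hb, hbmax⟩ := exists_max_image _ u hne'
    have hb' : ¬2 * (univ.filter fun w => u b < u w).card ≤ Fintype.card V := fun hle =>
      not_le.2 (mem_filter.1 hb).2 (hamin b (mem_filter.2 ⟨mem_univ b, hle⟩))
    have hsub : Disjoint (univ.filter fun w => u w < m) (univ.filter fun w => u b < u w) :=
      disjoint_left.2 fun w hw hw' => not_lt.2 (hbmax w hw) (mem_filter.1 hw').2
    have := (card_union_of_disjoint hsub).symm.le.trans (card_le_univ _)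
    omega
  set g : V → ℝ := fun v => u v - m with hg
  set gp : V → ℝ := fun v => max (g v) 0 with hgp
  set gn : V → ℝ := fun v => max (-g v) 0 with hgn
  have hp := dirichlet_of_support hd hreg h0 hh gp (le_trans (Nat.mul_le_mul_left 2
    (card_le_card fun v hv => by
      simp only [mem_filter, mem_univ, true_and, hgp, hg, ne_eq, sq_eq_zero_iff, max_eq_right_iff,
        not_le] at hv ⊢
      linarith)) (mem_filter.1 ha).2)
  have hn := dirichlet_of_support hd hreg h0 hh gn (le_trans (Nat.mul_le_mul_left 2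
    (card_le_card fun v hv => by
      simp only [mem_filter, mem_univ, true_and, hgn, hg, ne_eq, sq_eq_zero_iff, max_eq_right_iff,
        not_le] at hv ⊢
      linarith)) hlow)
  have hsplit : ∀ v w, (gp v - gp w) ^ 2 + (gn v - gn w) ^ 2 ≤ (u v - u w) ^ 2 := by
    intro v w
    have e : u v - u w = (gp v - gp w) - (gn v - gn w) := by
      have h1 := max_zero_sub_max_neg_zero_eq_self (g v)
      have h2 := max_zero_sub_max_neg_zero_eq_self (g w)
      simp only [hgp, hgn]
      simp only [hg] at h1 h2 ⊢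
      linarith
    have h1 : (gp v - gp w) * (gn v - gn w) ≤ 0 := by
      simp only [hgp, hgn]
      rcases le_total (g v) (g w) with h2 | h2
      · exact mul_nonpos_of_nonpos_of_nonneg (sub_nonpos.2 (max_le_max_right _ h2))
          (sub_nonneg.2 (max_le_max_right _ (neg_le_neg h2)))
      · exact mul_nonpos_of_nonneg_of_nonpos (sub_nonneg.2 (max_le_max_right _ h2))
          (sub_nonpos.2 (max_le_max_right _ (neg_le_neg h2)))
    rw [e]; nlinarith
  have hQ : ∑ v, ∑ w ∈ G.neighborFinset v, (gp v - gp w) ^ 2 +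
      ∑ v, ∑ w ∈ G.neighborFinset v, (gn v - gn w) ^ 2 ≤
      ∑ v, ∑ w ∈ G.neighborFinset v, (u v - u w) ^ 2 := by
    simp only [← sum_add_distrib]
    exact sum_le_sum fun v _ => sum_le_sum fun w _ => hsplit v w
  have hX : ∑ v, u v ^ 2 ≤ ∑ v, gp v ^ 2 + ∑ v, gn v ^ 2 := by
    have e : ∀ v, gp v ^ 2 + gn v ^ 2 = u v ^ 2 - 2 * m * u v + m ^ 2 := by
      intro v
      simp only [hgp, hgn, hg]
      rcases le_total (u v - m) 0 with h1 | h1
      · rw [max_eq_right h1, max_eq_left (neg_nonneg.2 h1)]; ring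
      · rw [max_eq_left h1, max_eq_right (neg_nonpos.2 h1)]; ring
    rw [← sum_add_distrib, sum_congr rfl fun v _ => e v, sum_add_distrib, sum_sub_distrib,
      ← mul_sum, hsum, mul_zero, sub_zero, le_add_iff_nonneg_right]
    positivity
  have hdir := dirichlet_eq hreg u
  have hform : adjForm G u = μ * ∑ v, u v ^ 2 := by
    rw [mul_sum]
    refine sum_congr rfl fun v _ => ?_
    rw [← mul_sum, hev]; ring
  have hpos : 0 < ∑ v, u v ^ 2 := by
    refine (sum_nonneg fun v _ => sq_nonneg (u v)).lt_of_ne' fun he => hu (funext fun v => ?_)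
    exact sq_eq_zero_iff.1 ((sum_eq_zero_iff_of_nonneg fun w _ => sq_nonneg (u w)).1 he v (mem_univ v))
  have hk : 0 ≤ h ^ 2 / (d : ℝ) := by positivity
  have h6 : h ^ 2 / (d : ℝ) * ∑ v, u v ^ 2 ≤ 2 * ((d : ℝ) - μ) * ∑ v, u v ^ 2 := by
    have := mul_le_mul_of_nonneg_left hX hk
    rw [hform] at hdir
    nlinarith
  have h7 := le_of_mul_le_mul_right h6 hpos
  have h8 : h ^ 2 / (2 * (d : ℝ)) = h ^ 2 / d / 2 := by field_simp
  linarith

/-- The expander mixing lemma. -/
theorem mixing {d : ℕ} (hreg : ∀ v, (G.neighborFinset v).card = d) {lam : ℝ} (hlam : 0 ≤ lam)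
    (hev : ∀ (μ : ℝ) (u : V → ℝ), u ≠ 0 → ∑ v, u v = 0 →
      (∀ v, ∑ w ∈ G.neighborFinset v, u w = μ * u v) → |μ| ≤ lam) (S T : Finset V) :
    |((pairsBetween G S T).card : ℝ) - d * S.card * T.card / Fintype.card V| ≤
      lam * Real.sqrt (S.card * T.card) := by
  set n : ℝ := (Fintype.card V : ℝ) with hn
  set s : ℝ := (S.card : ℝ) with hs
  set t : ℝ := (T.card : ℝ) with ht
  rcases S.eq_empty_or_nonempty with hSe | hSne
  · subst hSe; simp [pairsBetween, hs]
  rcases T.eq_empty_or_nonempty with hTe | hTne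
  · subst hTe; simp [pairsBetween, ht]
  have hs0 : 0 < s := by rw [hs]; exact_mod_cast hSne.card_pos
  have ht0 : 0 < t := by rw [ht]; exact_mod_cast hTne.card_pos
  have hn0 : 0 < n := by
    obtain ⟨x, -⟩ := hSne
    rw [hn]; exact_mod_cast Fintype.card_pos_iff.2 ⟨x⟩
  set f : V → ℝ := fun v => (if v ∈ S then 1 else 0) - s / n with hf
  set g : V → ℝ := fun v => (if v ∈ T then 1 else 0) - t / n with hg
  have hfs : ∑ v, f v = 0 := by
    simp only [hf, sum_sub_distrib, sum_boole, filter_mem_eq_inter, univ_inter, sum_const, card_univ,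
      nsmul_eq_mul, ← hn, ← hs]
    field_simp
    ring
  have hgs : ∑ v, g v = 0 := by
    simp only [hg, sum_sub_distrib, sum_boole, filter_mem_eq_inter, univ_inter, sum_const, card_univ,
      nsmul_eq_mul, ← hn, ← ht]
    field_simp
    ring
  have hff : ∑ v, f v ^ 2 ≤ s := by
    have : ∀ v, f v ^ 2 = (1 - 2 * (s / n)) * (if v ∈ S then 1 else 0) + (s / n) ^ 2 := by
      intro v; simp only [hf]; split_ifs <;> ring
    simp only [this, sum_add_distrib, ← mul_sum, sum_boole, filter_mem_eq_inter, univ_inter,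
      sum_const, card_univ, nsmul_eq_mul, ← hn, ← hs]
    have : n * (s / n) ^ 2 = s * s / n := by field_simp
    have : 0 ≤ s * s / n := by positivity
    have : (1 - 2 * (s / n)) * s = s - 2 * (s * s / n) := by ring
    linarith
  have hgg : ∑ v, g v ^ 2 ≤ t := by
    have : ∀ v, g v ^ 2 = (1 - 2 * (t / n)) * (if v ∈ T then 1 else 0) + (t / n) ^ 2 := by
      intro v; simp only [hg]; split_ifs <;> ring
    simp only [this, sum_add_distrib, ← mul_sum, sum_boole, filter_mem_eq_inter, univ_inter,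
      sum_const, card_univ, nsmul_eq_mul, ← hn, ← ht]
    have : n * (t / n) ^ 2 = t * t / n := by field_simp
    have : 0 ≤ t * t / n := by positivity
    have : (1 - 2 * (t / n)) * t = t - 2 * (t * t / n) := by ring
    linarith
  have hB : adjBilin G f g = ((pairsBetween G S T).card : ℝ) - d * s * t / n := by
    have e1 : ∀ φ : V → ℝ, ∑ v, ∑ _w ∈ G.neighborFinset v, φ v = (d : ℝ) * ∑ v, φ v := by
      intro φ; rw [mul_sum]; simp only [sum_const, hreg, nsmul_eq_mul]
    have e2 : ∀ φ : V → ℝ, ∑ v, ∑ w ∈ G.neighborFinset v, φ w = (d : ℝ) * ∑ v, φ v := by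
      intro φ; rw [nbr_swap fun _ w => φ w]; exact e1 φ
    have e3 : ∀ v w, f v * g w = (if v ∈ S then (1 : ℝ) else 0) * (if w ∈ T then 1 else 0) -
        t / n * (if v ∈ S then 1 else 0) - s / n * (if w ∈ T then 1 else 0) + s / n * (t / n) := by
      intro v w; simp only [hf, hg]; ring
    rw [adjBilin, pairs_eq, adjBilin]
    simp only [e3, sum_add_distrib, sum_sub_distrib]
    rw [e1 fun v => t / n * (if v ∈ S then 1 else 0), e2 fun w => s / n * (if w ∈ T then 1 else 0),
      e1 fun _ => s / n * (t / n)]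
    simp only [← mul_sum, sum_boole, filter_mem_eq_inter, univ_inter, sum_const, card_univ,
      nsmul_eq_mul, ← hn, ← hs, ← ht]
    field_simp
    ring
  rw [← hB]
  set a := Real.sqrt t / Real.sqrt s with ha
  have ha0 : 0 < a := by positivity
  have hsym : adjBilin G g f = adjBilin G f g := by
    rw [adjBilin, nbr_swap fun v w => g v * f w, adjBilin]
    exact sum_congr rfl fun v _ => sum_congr rfl fun w _ => mul_comm _ _
  have hpol : ∀ e : ℝ, adjForm G (fun v => a * f v + e * g v) =
      a ^ 2 * adjForm G f + e * a * (adjBilin G f g + adjBilin G g f) + e ^ 2 * adjForm G g := by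
    intro e
    simp only [adjForm, adjBilin, mul_sum, ← sum_add_distrib]
    exact sum_congr rfl fun v _ => sum_congr rfl fun w _ => by ring
  have hnorm : ∀ e : ℝ, ∑ v, (a * f v + e * g v) ^ 2 =
      a ^ 2 * ∑ v, f v ^ 2 + e * (2 * a * ∑ v, f v * g v) + e ^ 2 * ∑ v, g v ^ 2 := by
    intro e
    simp only [mul_sum, ← sum_add_distrib]
    exact sum_congr rfl fun v _ => by ring
  have hb := fun e : ℝ => form_bounds hreg (α := -lam) (β := lam)
    (fun μ u h0 h1 h2 => abs_le.1 (hev μ u h0 h1 h2)) (fun v => a * f v + e * g v)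
    (by rw [sum_add_distrib, ← mul_sum, ← mul_sum, hfs, hgs, mul_zero, mul_zero, add_zero])
  have hp := hb 1
  have hm := hb (-1)
  simp only [hpol, hnorm, hsym] at hp hm
  have ha2 : a ^ 2 * s = t := by
    rw [ha, div_pow, Real.sq_sqrt ht0.le, Real.sq_sqrt hs0.le]; field_simp
  have hgoal : a * (lam * Real.sqrt (s * t)) = lam * t := by
    rw [ha, Real.sqrt_mul hs0.le]
    field_simp
    rw [Real.sq_sqrt ht0.le]
    ring
  have h9 : a ^ 2 * ∑ v, f v ^ 2 ≤ t := ha2 ▸ mul_le_mul_of_nonneg_left hff (sq_nonneg a)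
  have h10 : lam * (a ^ 2 * ∑ v, f v ^ 2 + ∑ v, g v ^ 2) ≤ lam * (t + t) :=
    mul_le_mul_of_nonneg_left (add_le_add h9 hgg) hlam
  rw [abs_le]
  constructor
  · refine le_of_mul_le_mul_left ?_ ha0
    linarith
  · refine le_of_mul_le_mul_left ?_ ha0
    linarith

end FA.GraphCheeger
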